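import Mathlib
import Fermat.Agent.FF3.StepB.Packs
import Fermat.Agent.FF3.GoodRep.StepBPlug

/-!
# PROGRAMME II, block K7 (helper22): TOR-EPS with `e = 1`

The landed top literal of Programme I, `StepB.TorEps Dt = ∃ e ≠ 0, ∀ k s x, … → e • (s • x − χ(s) • x) = 0`,
is proved in `FF3/StepB/Top.lean` with the witness `e = 1`; since the witness of an existential
`Prop` cannot be extracted, this file RESTATES the result with `e = 1` (same proof, verbatim, on the
landed lemmas of `FF3/StepB/Top.lean`) and discharges all named hypotheses with the landed blocks: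

* `TorEpsOne Dt` : `∀ k, ∀ s ∈ I_q, ∀ x ∈ torSub (q ^ k)`, `alphaDown x = 0 → betaDown x = 0 →`
  `s • x = cycloLift (q ^ k) s • x`;
* `torEpsOne_of` : from the named outputs of Steps A + B (as `StepB.torEps_of`);
* **`torEpsOne Dt h2 h3 : TorEpsOne Dt`** unconditionally, at a level `M` without elliptic points;
* `torEpsOne_torsion` : the case `k = 1` in the form consumed by the end-game of S40:
  for `x ∈ torSub q` in the new part, `s • x = cycloLift q s • x`;
* `torEps_of_torEpsOne` : back to the landed literal.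
-/

set_option autoImplicit false
set_option linter.unusedSectionVars false
set_option linter.style.haveILetI false

noncomputable section

set_option synthInstance.maxHeartbeats 400000

namespace Fermat.Agent.FF4.K7

open ModularCurve AlgebraicCurve IsLocalRing
open Fermat.Agent.Red Fermat.Agent.X0 Fermat.Agent.Hecke Fermat.Agent.BR.SS
open Fermat.Agent.BR.Final Fermat.Agent.BR2 Fermat.Agent.BR2.SetupOfData
open Fermat.Agent.BR Fermat.Agent.Pseudo Fermat.Agent.BR.Inst.Levels
open Fermat.Agent.BR.Inst.FKCover Fermat.Agent.BR.S0 Fermat.Agent.BR.S0.PointDict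
open Fermat.Agent.BR.S0.RedModular Fermat.Agent.BR.TwoVal Fermat.Agent.BR.ValTwo
open Fermat.Agent.FF3.StepA Fermat.Agent.FF3.LevelDesc Fermat.Agent.FF3.B4 Fermat.Agent.FF3
open Fermat.Agent.FF3.StepB

local notation "GQ" => (AlgebraicClosure ℚ ≃ₐ[ℚ] AlgebraicClosure ℚ)

variable {M q : ℕ} [NeZero M] [hq : Fact q.Prime]
variable {B : ValuationSubring Kb} {hB : B.LiesOverPrime q} {hqM : ¬ q ∣ M}
variable [IsAlgClosed (ResidueField B)]

/-- **(K7) TOR-EPS with `e = 1`**: on the new part of the toric part of `J₀(Mq)[q ^ k]` the inertia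
group at `q` acts through the cyclotomic character, exactly. -/
def TorEpsOne (Dt : ModularData M q B hB hqM) : Prop :=
  haveI : NeZero q := ⟨hq.out.ne_zero⟩
  ∀ (k : ℕ) (s : GQ), s ∈ B.inertiaSubgroupIn ℚ →
    ∀ x : JZero (M * q), x ∈ Filt.torSub (setup Dt) (q ^ k) →
      LevelTransfer.alphaDown M q x = 0 → LevelMaps.betaDown M q x = 0 →
        s • x = Cyclo.cycloLift (q ^ k) s • x

/-- back to the landed literal `StepB.TorEps` -/
theorem torEps_of_torEpsOne {Dt : ModularData M q B hB hqM} (h : TorEpsOne Dt) : TorEps Dt := by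
  haveI : NeZero q := ⟨hq.out.ne_zero⟩
  refine ⟨1, one_ne_zero, fun k s hs x hx hα hβ => ?_⟩
  rw [one_smul, h k s hs x hx hα hβ, sub_self]

/-- **STEPS A + B with `e = 1`** (the proof of `StepB.torEps_of`, verbatim). -/
theorem torEpsOne_of (Dt : ModularData M q B hB hqM) (Rt : RatNotion Dt) (hA : StepAOut Dt)
    (hG : GoodRep Dt) (hE : AuxDiv Dt) (hP : LevelPacks Dt Rt) : TorEpsOne Dt := by
  classical
  haveI : NeZero q := ⟨hq.out.ne_zero⟩
  haveI := ResInst.charP_res q B hB
  intro k s hs x hx hα hβ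
  rw [← sub_eq_zero]
  haveI : NeZero (q ^ k) := ⟨pow_ne_zero k hq.out.ne_zero⟩
  -- T1: a good representative
  obtain ⟨D, f, hrep, hDsm, hfu⟩ := hG k x hx
  -- Step A + independence of the representative
  obtain ⟨D₁, f₁, hrep₁, h1, h2⟩ := hA k x hx hα hβ
  have h1' := ApproxPow.of_isRep hrep₁ hrep h1
  have h2' := ApproxPow.of_isRep hrep₁ hrep h2
  -- T6
  refine smul_sub_cyclo_eq_zero_of_principal (q ^ k) s hrep.1 ?_
  -- T2b: the auxiliary divisors of the twisted divisor
  obtain ⟨E₀, E₁, hE₀, hE₁, hdisj, hE₀sm, hE₁sm, S₂, hS₂⟩ :=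
    hE _ (degree_twist (gal (M * q) s) D (cycloExp (q ^ k) s))
      (smooth_twist Dt hs _ hDsm (cycloExp (q ^ k) s))
  -- T2a: a level of rationality of all the points
  obtain ⟨S₃, hS₃⟩ := exists_level_rat Rt
    ((D : Divisor Kb (Fb (M * q))).support ∪ E₀.support ∪ E₁.support) (fun Q hQ => by
      rcases Finset.mem_union.mp hQ with hQ | hQ
      · rcases Finset.mem_union.mp hQ with hQ | hQ
        · exact hDsm Q hQ
        · exact hE₀sm Q hQ
      · exact hE₁sm Q hQ)
  -- T3 + T4: the level of the packages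
  obtain ⟨S₄, hS₄⟩ := hP k
  -- level descent
  obtain ⟨Sl, hSl₀, hgal, hSl⟩ := exists_level_of_approxPow (pow_pos hq.out.pos k) h1' h2'
    (2 * k + 1) (S₂ ∪ S₃ ∪ S₄)
  obtain ⟨hfF, hζ, hr1, hr2⟩ := hSl Sl subset_rfl
  have hS₂l : S₂ ⊆ Sl := (Finset.subset_union_left.trans Finset.subset_union_left).trans hSl₀
  have hS₃l : S₃ ⊆ Sl := (Finset.subset_union_right.trans Finset.subset_union_left).trans hSl₀
  have hS₄l : S₄ ⊆ Sl := Finset.subset_union_right.trans hSl₀
  obtain ⟨P, hPs⟩ := hS₄ Sl hS₄l hgal hζ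
  obtain ⟨I⟩ := hPs s hs (cycloExp (q ^ k) s) fun ζ hζ => cycloExp_spec (q ^ k) s hζ
  -- exact roots in the completions
  have hrat : ∀ v : Fin 2, RatApprox ((setup Dt).O v) (q ^ k) (2 * k + 1) f Sl := by
    intro v
    fin_cases v
    · exact hr1
    · exact hr2
  have hq1 : ∀ v : Fin 2, (q : Fb (M * q)) ∈ ((setup Dt).O v).nonunits := by
    intro v
    fin_cases v
    · exact natCast_mem_nonunits_O1 B hB
    · exact natCast_mem_nonunits_O2 B hB hqM
  have hroot : ∀ v : Fin 2, ∃ y : P.X.Oh v, y ^ (q ^ k) = P.X.ofRatAt v ⟨f, hfF⟩ (hfu v).1 := by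
    intro v
    obtain ⟨w, -, hw⟩ := (hrat v).exists_root (by omega) (hq1 v) (levelField M q Sl) le_rfl
      (P.adic v) (P.X.emb v) (P.X.emb_mem_iff v) hfF
    have hwO : w ∈ P.X.Oh v := by
      refine mem_of_pow_mem (P.X.Oh v) (pow_ne_zero k hq.out.ne_zero) ?_
      rw [← hw]
      exact (P.X.emb_mem_iff v ⟨f, hfF⟩).2 (hfu v).1
    exact ⟨⟨w, hwO⟩, Subtype.ext hw.symm⟩
  choose y hy using hroot
  have hT : ∀ Q, Q ∈ (D : Divisor Kb (Fb (M * q))).support ∪ E₀.support ∪ E₁.support →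
      Rt.Rat Sl Q := fun Q hQ => hS₃ Sl hS₃l Q hQ
  exact principal_of_levelPack Dt hgal (pow_ne_zero k hq.out.ne_zero) P hs I D f hrep.2.2
    hrep.2.1 hDsm
    (fun Q hQ => hT Q (Finset.mem_union_left _ (Finset.mem_union_left _ hQ))) hfu hfF y hy
    E₀ E₁ hE₀ hE₁ hdisj hE₀sm hE₁sm
    (fun Q hQ => hT Q (Finset.mem_union_left _ (Finset.mem_union_right _ hQ)))
    (fun Q hQ => hT Q (Finset.mem_union_right _ hQ)) (hS₂ Sl hS₂l).1 (hS₂ Sl hS₂l).2

/-- **(K7), unconditional**: TOR-EPS with `e = 1` at a level `M` without elliptic points. -/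
theorem torEpsOne (Dt : ModularData M q B hB hqM) (h2 : nuTwo M = 0) (h3 : nuThree M = 0) :
    TorEpsOne Dt :=
  torEpsOne_of Dt (Fermat.Agent.FF3.GoodRep.ratNotion Dt)
    (Fermat.Agent.FF3.GoodRep.stepAOut_of_data Dt)
    (Fermat.Agent.FF3.GoodRep.goodRep_of_data Dt h2 h3)
    (Fermat.Agent.FF3.GoodRep.auxDiv_of_data Dt h2 h3)
    (levelPacks Dt (Fermat.Agent.FF3.GoodRep.ratNotion Dt) (fun _ _ h => h))

/-- **(K7), the case `k = 1`** consumed by the end-game of S40: on the new part of the toric part of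
`J₀(Mq)[q]` the inertia group acts through the mod `q` cyclotomic character. -/
theorem torEpsOne_torsion (Dt : ModularData M q B hB hqM) (h2 : nuTwo M = 0) (h3 : nuThree M = 0)
    {s : GQ} (hs : s ∈ B.inertiaSubgroupIn ℚ) {x : JZero (M * q)}
    (hx : haveI : NeZero q := ⟨hq.out.ne_zero⟩; x ∈ Filt.torSub (setup Dt) q)
    (hα : LevelTransfer.alphaDown M q x = 0) (hβ : LevelMaps.betaDown M q x = 0) :
    s • x = (haveI : NeZero q := ⟨hq.out.ne_zero⟩; Cyclo.cycloLift q s) • x := by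
  haveI : NeZero q := ⟨hq.out.ne_zero⟩
  have h := torEpsOne Dt h2 h3 1 s hs x (by rwa [pow_one]) hα hβ
  simpa only [pow_one] using h

end Fermat.Agent.FF4.K7
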